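/-
S42 (row 40) from S29 (helper6): WIRING.

`s42_of_s29`: if every normalised eigenform has a residual representation (the statement of S29),
then `P.EigenformResidualAttachmentAt M` for every Frey package `P` and every level `M`:
`K := ℤ̄ / 𝔪`, `ψ :=` the quotient map, `ρ :=` the representation of S29, trace and determinant from
the characteristic polynomial, `F :=` a finite Galois extension of `ℚ` containing a finite level of
`ρ` and a finite level of the `p`-torsion of the Frey curve.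
-/
import Mathlib
import Fermat.Prelude.Def_FreyPackage_EigenformResidualAttachment
import Fermat.Prelude.Def_GaloisRep_Residual

set_option autoImplicit false
set_option linter.unusedSectionVars false

open WeierstrassCurve WeierstrassCurve.Affine WeierstrassCurve.Affine.Point Polynomial

noncomputable section

namespace Fermat.Agent.S42W

local notation "Qbar" => AlgebraicClosure ℚ
local notation "GQ" => (AlgebraicClosure ℚ ≃ₐ[ℚ] AlgebraicClosure ℚ)
local notation "Zbar" => integralClosure ℤ ℂ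

/-! ### trace and determinant from the characteristic polynomial in dimension 2 -/

section TraceDet

variable {K : Type*} [Field K] {V : Type*} [AddCommGroup V] [Module K V] [Module.Finite K V]

theorem trace_det_of_charpoly (h2 : Module.finrank K V = 2) (f : Module.End K V) (a d : K)
    (hf : LinearMap.charpoly f = X ^ 2 - C a * X + C d) :
    LinearMap.trace K V f = a ∧ LinearMap.det f = d := by
  classical
  let b : Module.Basis (Fin 2) K V := Module.finBasisOfFinrankEq K V h2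
  have hM : (LinearMap.toMatrix b b f).charpoly = X ^ 2 - C a * X + C d := by
    rw [LinearMap.charpoly_toMatrix, hf]
  constructor
  · rw [LinearMap.trace_eq_matrix_trace K b f, Matrix.trace_eq_neg_charpoly_coeff, hM]
    simp [Polynomial.coeff_X, Polynomial.coeff_X_pow]
  · rw [← LinearMap.det_toMatrix b f, Matrix.det_eq_sign_charpoly_coeff, hM]
    simp [Polynomial.coeff_X, Polynomial.coeff_X_pow]

end TraceDet

/-! ### the three inputs, as statements -/

/-- the statement of S29 -/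
def S29Statement : Prop :=
  ∀ {N : ℕ} {g : CuspForm (CongruenceSubgroup.Gamma0 N) 2}, g.IsNormalizedEigenform →
    ∀ {p : ℕ}, p.Prime → ∀ {k : Type} [Field k] [CharP k p] (φ : integralClosure ℤ ℂ →+* k),
      ∃ ρ : ResidualGaloisRep k, ρ.IsAttachedTo g φ ∧
        ∀ ℓ : ℕ, ℓ.Prime → ¬ ℓ ∣ N * p → ρ.IsUnramifiedAt ℓ

/-- the `p`-torsion representation of the Frey curve factors through a finite level -/
def FreyLevelStatement : Prop :=
  ∀ [DecidableEq (AlgebraicClosure ℚ)] (P : FreyPackage),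
    GaloisFactorsThroughFiniteLevel
      (galoisRepModuleEnd (S := ℚ) (K := AlgebraicClosure ℚ) P.freyCurve P.p)

/-- two finite levels are contained in a finite Galois extension -/
def FieldStatement : Prop :=
  ∀ (L₁ L₂ : IntermediateField ℚ (AlgebraicClosure ℚ)),
    FiniteDimensional ℚ L₁ → FiniteDimensional ℚ L₂ →
    ∃ (F : Type) (_ : Field F) (_ : NumberField F) (_ : IsGalois ℚ F)
      (_ : Algebra F (AlgebraicClosure ℚ)) (_ : IsScalarTower ℚ F (AlgebraicClosure ℚ)),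
      ∀ σ ∈ (AlgEquiv.restrictNormalHom (F := ℚ) (K₁ := AlgebraicClosure ℚ) F).ker,
        (∀ x ∈ L₁, σ x = x) ∧ (∀ x ∈ L₂, σ x = x)

/-! ### the assembly -/

theorem natCast_ne_zero_of_ne {K : Type*} [Field K] {p : ℕ} [CharP K p] (hp : p.Prime)
    {ℓ : ℕ} (hℓ : ℓ.Prime) (h : ℓ ≠ p) : (ℓ : K) ≠ 0 := by
  intro h0
  have hd : p ∣ ℓ := (CharP.cast_eq_zero_iff K p ℓ).1 h0
  rcases (Nat.dvd_prime hℓ).1 hd with h1 | h1
  · exact hp.one_lt.ne' h1
  · exact h h1.symm

theorem s42_of_s29 (h29 : S29Statement) (hb : FreyLevelStatement) (hc : FieldStatement)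
    (P : FreyPackage) : ∀ M : ℕ, 0 < M → P.EigenformResidualAttachmentAt M := by
  intro M _ g hg 𝔪 h𝔪 hp𝔪
  haveI := h𝔪
  letI iK : Field (Zbar ⧸ 𝔪) := Ideal.Quotient.field 𝔪
  haveI iC : CharP (Zbar ⧸ 𝔪) P.p := by
    have h0 : ((P.p : ℕ) : Zbar ⧸ 𝔪) = 0 := by
      have : (Ideal.Quotient.mk 𝔪) (P.p : Zbar) = 0 := Ideal.Quotient.eq_zero_iff_mem.2 hp𝔪
      simpa using this
    exact (CharP.charP_iff_prime_eq_zero P.pp).2 h0
  letI iA : Algebra (ZMod P.p) (Zbar ⧸ 𝔪) := ZMod.algebra _ P.p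
  obtain ⟨ρ0, hatt, -⟩ := h29 hg P.pp (Ideal.Quotient.mk 𝔪)
  obtain ⟨L₁, hL₁, h1⟩ := ρ0.factorsThroughFiniteLevel
  obtain ⟨L₂, hL₂, h2⟩ := hb P
  obtain ⟨F, iF, iNF, iG, iFA, iT, hF⟩ := hc L₁ L₂ hL₁ hL₂
  refine ⟨Zbar ⧸ 𝔪, iK, iA, ρ0.V, inferInstance, inferInstance, ρ0.ρ, Ideal.Quotient.mk 𝔪,
    F, iF, iNF, iG, iFA, iT, ?_, ρ0.finrank_eq, ?_, ?_, ?_⟩
  · intro x hx
    exact (RingHom.mem_ker).2 (Ideal.Quotient.eq_zero_iff_mem.2 hx)
  · intro σ hσ
    obtain ⟨hσ1, hσ2⟩ := hF σ hσ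
    exact ⟨MonoidHom.mem_ker.2 (h2 σ hσ2), MonoidHom.mem_ker.2 (h1 σ hσ1)⟩
  · intro ℓ hℓ hℓM hℓp A hA τ hτ
    obtain ⟨a, ha, hch⟩ := hatt ℓ hℓ hℓM (natCast_ne_zero_of_ne P.pp hℓ hℓp) A hA τ hτ
    exact ⟨a, ha, (trace_det_of_charpoly ρ0.finrank_eq _ _ _ hch).1⟩
  · intro ℓ hℓ hℓM hℓp A hA τ hτ
    obtain ⟨a, ha, hch⟩ := hatt ℓ hℓ hℓM (natCast_ne_zero_of_ne P.pp hℓ hℓp) A hA τ hτ
    exact (trace_det_of_charpoly ρ0.finrank_eq _ _ _ hch).2

end Fermat.Agent.S42W
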