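/-
S42 (row 40), part (c), helper6's version: two finite levels lie in a finite Galois extension of
`ℚ` inside `ℚ̄` (the normal closure of their compositum).
-/
import Mathlib
import Fermat.Agent.S42.Wire

set_option autoImplicit false

noncomputable section

namespace Fermat.Agent.S42W

local notation "Qbar" => AlgebraicClosure ℚ

theorem field_statement : FieldStatement := by
  intro L₁ L₂ h₁ h₂
  haveI := h₁
  haveI := h₂
  let F : IntermediateField ℚ Qbar := IntermediateField.normalClosure ℚ ↥(L₁ ⊔ L₂) Qbar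
  haveI : Algebra.IsAlgebraic ℚ Qbar := AlgebraicClosure.isAlgebraic ℚ
  haveI : IsAlgClosure ℚ Qbar := ⟨inferInstance, inferInstance⟩
  haveI : Normal ℚ Qbar := IsAlgClosure.normal ℚ Qbar
  haveI hN : Normal ℚ F := normalClosure.normal ℚ _ Qbar
  haveI hfd : FiniteDimensional ℚ F := normalClosure.is_finiteDimensional ℚ _ Qbar
  haveI hNF : NumberField F :=
    { to_charZero := inferInstance, to_finiteDimensional := inferInstance }
  haveI hG : IsGalois ℚ F := ⟨⟩
  refine ⟨F, inferInstance, hNF, hG, inferInstance, inferInstance, ?_⟩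
  intro σ hσ
  have hfix : ∀ x ∈ F, σ x = x := by
    intro x hx
    have h0 := AlgEquiv.restrictNormal_commutes σ F ⟨x, hx⟩
    have h1 : σ.restrictNormal F = 1 := MonoidHom.mem_ker.1 hσ
    rw [h1] at h0
    exact h0.symm
  have hle : L₁ ⊔ L₂ ≤ F := IntermediateField.le_normalClosure _
  exact ⟨fun x hx => hfix x (hle ((le_sup_left : L₁ ≤ L₁ ⊔ L₂) hx)),
    fun x hx => hfix x (hle ((le_sup_right : L₂ ≤ L₁ ⊔ L₂) hx))⟩

end Fermat.Agent.S42W
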