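/-
S42 (row 40), part (b) (helper6): the `p`-torsion representation of the Frey curve factors through
a finite level: the `p`-torsion is finite (`S13.frey_torsion_card`), `L :=` the field generated by
the coordinates of its points.
-/
import Mathlib
import Fermat.Prelude.Def_FreyPackage_EigenformResidualAttachment
import Fermat.Prelude.Def_GaloisRep_Residual
import Fermat.Agent.S13.FreyTorsion
import Fermat.Agent.S51.TorsionLib
import Fermat.Agent.S42.Wire

set_option autoImplicit false
set_option linter.unusedSectionVars false

open WeierstrassCurve WeierstrassCurve.Affine Polynomial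

noncomputable section

namespace Fermat.Agent.S42W

local notation "Qbar" => AlgebraicClosure ℚ
local notation "GQ" => (AlgebraicClosure ℚ ≃ₐ[ℚ] AlgebraicClosure ℚ)

section FiniteLevel

variable {R : Type*} [CommRing R] {S : Type*} [CommRing S] {K : Type*} [Field K]
  [DecidableEq K] {W' : WeierstrassCurve.Affine R} [Algebra R S] [Algebra R K] [Algebra S K]
  [IsScalarTower R S K]

/-- the coordinates of a point -/
def coords : (W'⁄K).Point → Set K
  | .zero => ∅
  | .some x y _ => {x, y}

theorem finite_coords (t : (W'⁄K).Point) : (coords t).Finite := by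
  cases t with
  | zero => exact Set.finite_empty
  | some x y h => exact (Set.finite_singleton y).insert x

theorem smul_eq_self_of_fix (σ : K ≃ₐ[S] K) (t : (W'⁄K).Point)
    (h : ∀ c ∈ coords t, σ c = c) : σ • t = t := by
  cases t with
  | zero => rfl
  | some x y hxy =>
    obtain ⟨h', e⟩ := Fermat.Agent.S51.smul_some (W' := W') σ hxy
    rw [e]
    have hx : σ x = x := h x (by simp [coords])
    have hy : σ y = y := h y (by simp [coords])
    simp only [hx, hy]

end FiniteLevel

theorem frey_finite_level : FreyLevelStatement := by
  intro inst P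
  obtain rfl : inst = (fun a b => Classical.propDecidable (a = b)) := Subsingleton.elim _ _
  haveI hfin : Finite (Submodule.torsionBy ℤ (P.freyCurve⁄Qbar).Point P.p) :=
    (Fermat.Agent.S13.frey_torsion_card P).1
  let Sset : Set Qbar :=
    ⋃ t : Submodule.torsionBy ℤ (P.freyCurve⁄Qbar).Point P.p,
      coords (t : (P.freyCurve⁄Qbar).Point)
  have hS : Sset.Finite := Set.finite_iUnion fun t => finite_coords _
  refine ⟨IntermediateField.adjoin ℚ Sset, ?_, ?_⟩
  · haveI : Algebra.IsAlgebraic ℚ Qbar := AlgebraicClosure.isAlgebraic ℚ
    haveI : Algebra.IsIntegral ℚ Qbar := Algebra.IsAlgebraic.isIntegral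
    haveI : Finite ↑Sset := hS.to_subtype
    exact IntermediateField.finiteDimensional_adjoin (K := ℚ) (L := Qbar) (S := Sset)
      (fun x _ => Algebra.IsIntegral.isIntegral x)
  · intro σ hσ
    refine LinearMap.ext fun t => Subtype.ext ?_
    rw [Affine.Point.galoisRepModuleEnd_apply]
    show σ • (t : (P.freyCurve⁄Qbar).Point) = t
    refine smul_eq_self_of_fix (S := ℚ) σ _ fun c hc => hσ c ?_
    exact IntermediateField.subset_adjoin ℚ Sset (Set.mem_iUnion.2 ⟨t, hc⟩)

end Fermat.Agent.S42W
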