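/-
S42 (row 40) from S29 (helper6): `s42_of_s29_only`: the statement of S29 implies S42.
-/
import Mathlib
import Fermat.Agent.S42.Wire
import Fermat.Agent.S42.FreyLevel
import Fermat.Agent.S42.FieldB

set_option autoImplicit false

namespace Fermat.Agent.S42W

theorem s42_of_s29_only (h29 : S29Statement) (P : FreyPackage) :
    ∀ M : ℕ, 0 < M → P.EigenformResidualAttachmentAt M :=
  s42_of_s29 h29 frey_finite_level field_statement P

end Fermat.Agent.S42W
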