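import Mathlib
import Fermat.Prelude.Def_GaloisRep_Residual

/-!
# S42 (item 91), piece (a): trace and determinant from the characteristic polynomial

* `trace_det_of_charpoly` : in rank `2`, `charpoly f = X² - t X + d` gives `trace f = t`,
  `det f = d`;
* `natCast_ne_zero_of_ne` : in characteristic `p`, a prime `ℓ ≠ p` is nonzero;
* `trace_of_isAttachedTo`, `det_of_isAttachedTo` : the two Frobenius conditions of
  `EigenformResidualAttachmentAt` from `ResidualGaloisRep.IsAttachedTo`.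
-/

set_option autoImplicit false

open Polynomial

noncomputable section

namespace Fermat.Agent.S42

theorem trace_det_of_charpoly {k V : Type*} [Field k] [AddCommGroup V] [Module k V]
    [Module.Finite k V] (hV : Module.finrank k V = 2) (f : V →ₗ[k] V) (t d : k)
    (h : LinearMap.charpoly f = X ^ 2 - C t * X + C d) :
    LinearMap.trace k V f = t ∧ LinearMap.det f = d := by
  classical
  let b : Module.Basis (Fin 2) k V := Module.finBasisOfFinrankEq k V hV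
  have hc : (LinearMap.toMatrix b b f).charpoly = X ^ 2 - C t * X + C d := by
    rw [LinearMap.charpoly_toMatrix f b, h]
  have htr : LinearMap.trace k V f = Matrix.trace (LinearMap.toMatrix b b f) :=
    LinearMap.trace_eq_matrix_trace k b f
  have hdet : LinearMap.det f = (LinearMap.toMatrix b b f).det :=
    (LinearMap.det_toMatrix b f).symm
  have h1 := Matrix.trace_eq_neg_charpoly_coeff (LinearMap.toMatrix b b f)
  have h0 := Matrix.det_eq_sign_charpoly_coeff (LinearMap.toMatrix b b f)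
  rw [hc] at h1 h0
  simp only [Fintype.card_fin] at h1 h0
  constructor
  · rw [htr, h1]
    simp [coeff_C, coeff_X_pow]
  · rw [hdet, h0]
    simp [coeff_X, coeff_C, coeff_X_pow]

theorem natCast_ne_zero_of_ne {K : Type*} [Field K] {p : ℕ} [CharP K p] (hp : p.Prime)
    {ℓ : ℕ} (hℓ : ℓ.Prime) (h : ℓ ≠ p) : (ℓ : K) ≠ 0 := by
  intro h0
  rw [CharP.cast_eq_zero_iff K p] at h0
  exact h ((Nat.prime_dvd_prime_iff_eq hp hℓ).mp h0).symm

variable {K : Type} [Field K] {p : ℕ} [CharP K p]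

theorem trace_of_isAttachedTo (hp : p.Prime) (ρ : ResidualGaloisRep K) {M : ℕ}
    {g : CuspForm (CongruenceSubgroup.Gamma0 M) 2} {ψ : integralClosure ℤ ℂ →+* K}
    (h : ρ.IsAttachedTo g ψ) :
    ∀ ℓ : ℕ, ℓ.Prime → ¬ ℓ ∣ M → ℓ ≠ p →
      ∀ A : ValuationSubring (AlgebraicClosure ℚ), A.LiesOverPrime ℓ →
        ∀ τ : AlgebraicClosure ℚ ≃ₐ[ℚ] AlgebraicClosure ℚ, A.IsFrobeniusAt τ ℓ →
          ∃ a : integralClosure ℤ ℂ, (a : ℂ) = ModularFormClass.qCoeff g ℓ ∧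
            LinearMap.trace K ρ.V (ρ.ρ τ) = ψ a := by
  intro ℓ hℓ hℓM hℓp A hA τ hτ
  obtain ⟨a, ha, hc⟩ := h ℓ hℓ hℓM (natCast_ne_zero_of_ne hp hℓ hℓp) A hA τ hτ
  exact ⟨a, ha, (trace_det_of_charpoly ρ.finrank_eq (ρ.ρ τ) (ψ a) (ℓ : K) hc).1⟩

theorem det_of_isAttachedTo (hp : p.Prime) (ρ : ResidualGaloisRep K) {M : ℕ}
    {g : CuspForm (CongruenceSubgroup.Gamma0 M) 2} {ψ : integralClosure ℤ ℂ →+* K}
    (h : ρ.IsAttachedTo g ψ) :
    ∀ ℓ : ℕ, ℓ.Prime → ¬ ℓ ∣ M → ℓ ≠ p →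
      ∀ A : ValuationSubring (AlgebraicClosure ℚ), A.LiesOverPrime ℓ →
        ∀ τ : AlgebraicClosure ℚ ≃ₐ[ℚ] AlgebraicClosure ℚ, A.IsFrobeniusAt τ ℓ →
          LinearMap.det (ρ.ρ τ) = (ℓ : K) := by
  intro ℓ hℓ hℓM hℓp A hA τ hτ
  obtain ⟨a, -, hc⟩ := h ℓ hℓ hℓM (natCast_ne_zero_of_ne hp hℓ hℓp) A hA τ hτ
  exact (trace_det_of_charpoly ρ.finrank_eq (ρ.ρ τ) (ψ a) (ℓ : K) hc).2

end Fermat.Agent.S42
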